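import Mathlib
import Fermat.Agent.S24.Defs
import Fermat.Agent.S24.FF.PlaceCount

/-!
# Counting places through embeddings in Laurent series permuted by a rotation

Level A of the cusp data: the counting lemma `card_zeros_eq_of_embeddings` specialised to
`E = LaurentSeries L`, with the orbit data coming from a rotation `t ↦ ζ t`.
-/

set_option autoImplicit false

namespace Fermat.Agent.S24.Cusp

open AlgebraicCurve WithZero IntermediateField

section Val

variable {L : Type*} [Field L]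

theorem valued_eq_exp_neg_order {f : LaurentSeries L} (hf : f ≠ 0) :
    (Valued.v f : ℤᵐ⁰) = exp (-f.order) := by
  have h0 : (Valued.v f : ℤᵐ⁰) ≠ 0 := (Valuation.ne_zero_iff _).mpr hf
  obtain ⟨k, hk⟩ : ∃ k : ℤ, (Valued.v f : ℤᵐ⁰) = exp k := ⟨log (Valued.v f), (exp_log h0).symm⟩
  have h1 : (Valued.v f : ℤᵐ⁰) ≤ exp (-f.order) :=
    (LaurentSeries.valuation_le_iff_coeff_lt_eq_zero L).mpr
      (fun n hn => HahnSeries.coeff_eq_zero_of_lt_order hn)
  have h2 : ¬ (Valued.v f : ℤᵐ⁰) ≤ exp (-(f.order + 1)) := by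
    intro h
    exact (mt HahnSeries.coeff_order_eq_zero.mp hf)
      ((LaurentSeries.valuation_le_iff_coeff_lt_eq_zero L).mp h _ (by omega))
  rw [hk, exp_le_exp] at h1 h2
  rw [hk]
  congr 1
  omega

theorem rot_one (f : LaurentSeries L) : rot (1 : Lˣ) f = f := by
  ext n; simp

theorem rot_rot (ζ ξ : Lˣ) (f : LaurentSeries L) : rot ζ (rot ξ f) = rot (ζ * ξ) f := by
  ext n; simp [mul_zpow, mul_assoc]

theorem rot_coeff_eq_zero_iff (ζ : Lˣ) (f : LaurentSeries L) (n : ℤ) :
    (rot ζ f).coeff n = 0 ↔ f.coeff n = 0 := by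
  rw [rot_coeff, mul_eq_zero, or_iff_right (Units.ne_zero _)]

theorem rot_eq_zero_iff (ζ : Lˣ) (f : LaurentSeries L) : rot ζ f = 0 ↔ f = 0 := by
  constructor
  · intro h
    ext n
    have := congrArg (fun g => HahnSeries.coeff g n) h
    exact (rot_coeff_eq_zero_iff ζ f n).mp this
  · rintro rfl; ext n; simp

theorem order_rot (ζ : Lˣ) (f : LaurentSeries L) : (rot ζ f).order = f.order := by
  rcases eq_or_ne f 0 with rfl | hf
  · rw [(rot_eq_zero_iff ζ 0).mpr rfl]
  have hf' : rot ζ f ≠ 0 := mt (rot_eq_zero_iff ζ f).mp hf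
  apply le_antisymm
  · apply HahnSeries.order_le_of_coeff_ne_zero
    rw [Ne, rot_coeff_eq_zero_iff]
    exact mt HahnSeries.coeff_order_eq_zero.mp hf
  · apply HahnSeries.order_le_of_coeff_ne_zero
    rw [Ne, ← rot_coeff_eq_zero_iff ζ]
    exact mt HahnSeries.coeff_order_eq_zero.mp hf'

theorem valued_rot (ζ : Lˣ) (f : LaurentSeries L) :
    (Valued.v (rot ζ f) : ℤᵐ⁰) = Valued.v f := by
  rcases eq_or_ne f 0 with rfl | hf
  · rw [(rot_eq_zero_iff ζ 0).mpr rfl]
  rw [valued_eq_exp_neg_order hf, valued_eq_exp_neg_order (mt (rot_eq_zero_iff ζ f).mp hf),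
    order_rot]

theorem zpow_order_eq_one_of_rot_eq (ζ : Lˣ) {f : LaurentSeries L} (hf : f ≠ 0)
    (h : rot ζ f = f) : ζ ^ f.order = 1 := by
  have h1 := congrArg (fun g => HahnSeries.coeff g f.order) h
  simp only [rot_coeff] at h1
  have h2 : f.coeff f.order ≠ 0 := mt HahnSeries.coeff_order_eq_zero.mp hf
  have h3 : ((ζ ^ f.order : Lˣ) : L) = 1 := by
    exact mul_right_cancel₀ h2 (by rw [h1, one_mul])
  exact Units.ext h3

end Val

section Main

variable {K F : Type*} [Field K] [Field F] [Algebra K F]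

open MulAction in
/-- **Counting lemma, rotation form.** -/
theorem card_zeros_eq_orbits_of_rot
    (y : F) [FiniteDimensional K⟮y⟯ F] [Algebra.IsSeparable K⟮y⟯ F]
    (hfin : {v : Place K F | 0 < v.ord y}.Finite)
    (hsum : ∑ v ∈ hfin.toFinset, v.ord y = (Module.finrank K⟮y⟯ F : ℤ))
    (hF0 : ∀ O : ValuationSubring F, (∀ a : K, algebraMap K F a ∈ O) → y ∈ O → O ≠ ⊤ →
      ∃ v : Place K F, v.toValuationSubring = O)
    (hF23 : ∀ (v0 : Place K F) (S : Finset (Place K F)), 0 < v0.ord y → v0 ∉ S →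
      (∀ v ∈ S, 0 < v.ord y) → ∃ b : F, b ≠ 0 ∧ (∀ v ∈ S, v.ord b = 0) ∧
        ∃ g : Polynomial K, algebraMap K⟮y⟯ F (Algebra.norm K⟮y⟯ b) = y * Polynomial.aeval y g)
    {L : Type*} [Field L]
    {X G : Type*} [Finite X] [Group G] [MulAction G X]
    (hcard : Nat.card X = Module.finrank K⟮y⟯ F)
    (σ : X → F →+* LaurentSeries L) (hσ : Function.Injective σ)
    (hK : ∀ i j (a : K), σ i (algebraMap K F a) = σ j (algebraMap K F a))
    (hKord : ∀ i (a : K), a ≠ 0 → (σ i (algebraMap K F a)).order = 0)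
    (hy : ∀ i j, σ i y = σ j y)
    (e0 : ℕ) (he0 : 0 < e0) (hwy : ∀ i, (σ i y).order = e0)
    (ζ : Lˣ) (hζ : IsPrimitiveRoot ζ e0)
    (g : G) (hg : ∀ i f, σ (g • i) f = rot ζ (σ i f)) :
    Nat.card {v : Place K F // 0 < v.ord y} =
      Nat.card (orbitRel.Quotient (Subgroup.zpowers g) X) := by
  classical
  let _ : Fintype X := Fintype.ofFinite X
  -- iterates
  have hnat : ∀ (k : ℕ) i f, σ (g ^ k • i) f = rot (ζ ^ k) (σ i f) := by
    intro k
    induction k with
    | zero => intro i f; simp [rot_one]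
    | succ k ih =>
      intro i f
      rw [pow_succ', mul_smul, hg, ih, rot_rot, pow_succ']
  have hinv1 : ∀ i f, σ (g⁻¹ • i) f = rot ζ⁻¹ (σ i f) := by
    intro i f
    have := hg (g⁻¹ • i) f
    rw [smul_inv_smul] at this
    rw [this, rot_rot, inv_mul_cancel, rot_one]
  have hnat' : ∀ (k : ℕ) i f, σ ((g⁻¹) ^ k • i) f = rot ((ζ⁻¹) ^ k) (σ i f) := by
    intro k
    induction k with
    | zero => intro i f; simp [rot_one]
    | succ k ih =>
      intro i f
      rw [pow_succ', mul_smul, hinv1, ih, rot_rot, pow_succ']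
  have hz : ∀ (k : ℤ) i f, σ (g ^ k • i) f = rot (ζ ^ k) (σ i f) := by
    intro k i f
    rcases Int.eq_nat_or_neg k with ⟨n, rfl | rfl⟩
    · simpa using hnat n i f
    · simpa using hnat' n i f
  have hne : ∀ i (f : F), f ≠ 0 → σ i f ≠ 0 := fun i f hf =>
    (map_ne_zero (σ i)).mpr hf
  let π : X → orbitRel.Quotient (Subgroup.zpowers g) X := Quotient.mk''
  have hπ : Function.Surjective π := Quotient.mk''_surjective
  have hπiff : ∀ i j, π i = π j ↔ ∃ k : ℤ, g ^ k • j = i := by
    intro i j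
    rw [Quotient.eq'', orbitRel_apply, mem_orbit_iff]
    constructor
    · rintro ⟨⟨_, k, rfl⟩, hk⟩
      exact ⟨k, hk⟩
    · rintro ⟨k, hk⟩
      exact ⟨⟨g ^ k, k, rfl⟩, hk⟩
  let s : X → ℕ := fun i => Function.minimalPeriod (fun x : X => g • x) i
  have hper : ∀ i : X, g ^ e0 • i = i := by
    intro i
    apply hσ
    ext1 f
    rw [hnat, hζ.pow_eq_one, rot_one]
  have hs_dvd : ∀ i, s i ∣ e0 := by
    intro i
    apply Function.IsPeriodicPt.minimalPeriod_dvd
    show (fun x : X => g • x)^[e0] i = i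
    rw [smul_iterate]
    exact hper i
  have hs_pos : ∀ i, 0 < s i := fun i => Nat.pos_of_dvd_of_pos (hs_dvd i) he0
  have hs_fix : ∀ i : X, g ^ (s i) • i = i := by
    intro i
    have := Function.isPeriodicPt_minimalPeriod (fun x : X => g • x) i
    have h2 : (fun x : X => g • x)^[s i] i = i := this
    rwa [smul_iterate] at h2
  have hfib : ∀ i, Nat.card {j // π j = π i} = s i := by
    intro i
    have e : {j // π j = π i} ≃ orbit (Subgroup.zpowers g) i :=
      Equiv.subtypeEquivRight (fun j => by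
        rw [Quotient.eq'', orbitRel_apply])
    rw [Nat.card_congr e, Nat.card_eq_fintype_card, ← minimalPeriod_eq_card]
  have key := card_zeros_eq_of_embeddings (K := K) y hfin hsum hF0 hF23
    (Valued.v : Valuation (LaurentSeries L) ℤᵐ⁰) (X := X)
    (Y := orbitRel.Quotient (Subgroup.zpowers g) X)
    (by rw [← Nat.card_eq_fintype_card]; exact hcard) σ hσ hK hy
    (fun i a ha => by
      rw [valued_eq_exp_neg_order (hne i _ ((map_ne_zero _).mpr ha)), hKord i a ha]; simp)
    e0 he0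
    (fun i => by
      have hy0 : σ i y ≠ 0 := by
        intro h
        have := hwy i
        rw [h, HahnSeries.order_zero] at this
        omega
      rw [valued_eq_exp_neg_order hy0, hwy])
    π hπ
    (fun i j hij f => by
      obtain ⟨k, rfl⟩ := (hπiff i j).mp hij
      rw [hz, valued_rot])
    (fun i => e0 / s i)
    (fun i => by rw [hfib]; exact Nat.div_mul_cancel (hs_dvd i))
    (fun i f hf => by
      have h1 : rot (ζ ^ s i) (σ i f) = σ i f := by
        rw [← hnat, hs_fix]
      have h2 := zpow_order_eq_one_of_rot_eq _ (hne i f hf) h1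
      rw [← zpow_natCast, ← zpow_mul, hζ.zpow_eq_one_iff_dvd] at h2
      obtain ⟨m, hm⟩ := hs_dvd i
      have hm' : e0 / s i = m := by
        rw [hm]; exact Nat.mul_div_cancel_left m (hs_pos i)
      have h3 : (m : ℤ) ∣ (σ i f).order := by
        rw [hm] at h2
        push_cast at h2
        exact (mul_dvd_mul_iff_left (by exact_mod_cast (hs_pos i).ne')).mp h2
      obtain ⟨c, hc⟩ := h3
      refine ⟨-c, ?_⟩
      rw [valued_eq_exp_neg_order (hne i f hf), hm', hc]
      congr 1
      ring)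
  rw [key, Nat.card_eq_fintype_card]

end Main

end Fermat.Agent.S24.Cusp
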