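import Fermat.Agent.S24.Sigma
import Fermat.Agent.S24.Conj
import Fermat.Agent.S24.HolPerMore
import Fermat.Prelude.Thm_ModularCurve_coeff_jqModC_neg_one
import Fermat.Prelude.Thm_ModularCurve_coeff_jqModC_pow_of_lt

/-!
# The embeddings `sigmaInf N x : FN N →+* LaurentSeries ℂ` (`q_N`-expansions at the cusp `∞`)
-/

set_option autoImplicit false

open UpperHalfPlane hiding I
open Function ModularCurve
open scoped Manifold MatrixGroups

namespace Fermat.Agent.S24

noncomputable section

/-- A ring hom out of the function field maps it into a subfield `S` as soon as the constants and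
the generators are mapped into `S`. -/
theorem map_mem_of_gen {N : ℕ} {E : Type*} [Field E] (φ : FN N →+* E) (S : Subfield E)
    (hK : ∀ a : Kb, φ (algebraMap Kb (FN N) a) ∈ S)
    (hj : ∀ (d : ℕ) [NeZero d] (hd : d ∣ N), φ (jBar N d hd) ∈ S) (x : FN N) : φ x ∈ S := by
  let S' : Subfield (LaurentSeries Kb) :=
    (S.comap φ).map (modularFunctionFieldBar N).val.toRingHom
  have key : ∀ y ∈ modularFunctionFieldBar N, y ∈ S' := by
    apply bar_le
    · intro a
      exact ⟨algebraMap Kb (FN N) a, hK a, rfl⟩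
    · intro d _ hd
      exact ⟨jBar N d hd, hj d hd, coe_jBar N d hd⟩
  obtain ⟨y, hy, hyx⟩ := key x x.2
  have : y = x := Subtype.ext hyx
  rw [← this]; exact hy

variable (N : ℕ) [NeZero N]

theorem actHol_jdHol_mem_range (g : SL(2, ℤ)) (d : ℕ) [NeZero d] (hd : d ∣ N) :
    algebraMap Hol Mer (actHol g (jdHol d)) ∈ (toMer N).fieldRange := by
  obtain ⟨A, B, hB, hAB⟩ := exists_jd_smul_eq_div hd g⁻¹
  refine ⟨algebraMap (HolPer N) (MerPer N) A / algebraMap (HolPer N) (MerPer N) B, ?_⟩
  have hne : algebraMap Hol Mer (inclHol N B) ≠ 0 := by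
    rw [Ne, map_eq_zero_iff _ (IsFractionRing.injective Hol Mer)]
    intro h
    exact hB UpperHalfPlane.I (congrFun (congrArg Subtype.val h) UpperHalfPlane.I)
  rw [toMer_div, div_eq_iff hne, ← map_mul]
  congr 1
  apply Subtype.ext
  funext τ
  show (A : ℍ → ℂ) τ = jd d (g⁻¹ • τ) * (B : ℍ → ℂ) τ
  rw [hAB, div_mul_cancel₀ _ (hB τ)]

theorem sigma_mem_range (x : XN N) (f : FN N) : sigma N x f ∈ (toMer N).fieldRange := by
  apply map_mem_of_gen
  · intro a
    exact ⟨algebraMap ℂ (MerPer N) (iotaK a), by rw [toMer_const, sigma_algebraMap]⟩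
  · intro d _ hd
    rw [sigma, sigma0_jBar]
    exact actHol_jdHol_mem_range N _ d hd

/-- `sigma N x` with values in `MerPer N`. -/
def sigmaPer (x : XN N) : FN N →+* MerPer N :=
  liftThrough (toMer N) (sigma N x) (sigma_mem_range N x)

theorem toMer_sigmaPer (x : XN N) (f : FN N) : toMer N (sigmaPer N x f) = sigma N x f :=
  liftThrough_spec _ _ _ f

/-- The `q_N`-expansion of `sigma N x f`. -/
def sigmaInf (x : XN N) : FN N →+* LaurentSeries ℂ := (toLaurent N).comp (sigmaPer N x)

theorem sigmaInf_apply (x : XN N) (f : FN N) : sigmaInf N x f = toLaurent N (sigmaPer N x f) := rfl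

theorem sigmaInf_T_inv_smul (x : XN N) (f : FN N) :
    sigmaInf N (ModularGroup.T⁻¹ • x) f = rot (zetaU N) (sigmaInf N x f) := by
  apply toLaurent_eq_rot_of_toMer_eq
  rw [toMer_sigmaPer, toMer_sigmaPer, actMer_sigma jfun_isSLInvariant]

theorem sigmaInf_T_smul (x : XN N) (f : FN N) :
    sigmaInf N (ModularGroup.T • x) f = rot (zetaU N)⁻¹ (sigmaInf N x f) := by
  apply toLaurent_eq_rot_inv_of_toMer_eq
  rw [toMer_sigmaPer, toMer_sigmaPer, actMer_sigma jfun_isSLInvariant]

theorem sigmaInf_injective : Injective (sigmaInf N) := by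
  intro x y hxy
  apply sigma_injective jfun_isSLInvariant jfun_hasSimplePoleAtImInfty N
  ext f
  have h1 : sigmaInf N x f = sigmaInf N y f := by rw [hxy]
  have h2 := toLaurent_injective N h1
  rw [← toMer_sigmaPer, ← toMer_sigmaPer, h2]

theorem sigmaPer_algebraMap (x : XN N) (a : Kb) :
    sigmaPer N x (algebraMap Kb (FN N) a) = algebraMap ℂ (MerPer N) (iotaK a) := by
  apply toMer_injective N
  rw [toMer_sigmaPer, toMer_const, sigma_algebraMap]

theorem sigmaInf_algebraMap (x : XN N) (a : Kb) :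
    sigmaInf N x (algebraMap Kb (FN N) a) = HahnSeries.C (iotaK a) := by
  rw [sigmaInf_apply, sigmaPer_algebraMap, toLaurent_const]

theorem sigmaInf_algebraMap_order (x : XN N) (a : Kb) :
    (sigmaInf N x (algebraMap Kb (FN N) a)).order = 0 := by
  rw [sigmaInf_algebraMap]
  exact HahnSeries.order_C

theorem sigmaInf_jF (x : XN N) : sigmaInf N x (jF N) = qExpand ℂ N (jqModC ℂ) := by
  have h1 : toMer N (sigmaPer N x (jF N)) = toMer 1 (jdPer 1) := by
    rw [toMer_sigmaPer, sigma_jF jfun_isSLInvariant, toMer_jdPer]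
  rw [sigmaInf_apply, toLaurent_eq_qExpand_of_toMer_eq 1 (mul_one N).symm h1, toLaurent_jdPer,
    jqNModC_one]

theorem order_jqModC : (jqModC ℂ).order = -1 := by
  have h1 : (jqModC ℂ).coeff (-1) ≠ 0 := by rw [coeff_jqModC_neg_one]; exact one_ne_zero
  apply le_antisymm (HahnSeries.order_le_of_coeff_ne_zero h1)
  have hne : jqModC ℂ ≠ 0 := HahnSeries.ne_zero_of_coeff_ne_zero h1
  by_contra hlt
  rw [not_le] at hlt
  have h2 := coeff_jqModC_pow_of_lt ℂ (b := 1) (m := (jqModC ℂ).order) (by simpa using hlt)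
  rw [pow_one] at h2
  exact hne (HahnSeries.coeff_order_eq_zero.mp h2)

theorem order_qExpand (M : ℕ) [NeZero M] (f : LaurentSeries ℂ) :
    (qExpand ℂ M f).order = (M : ℤ) * f.order := by
  by_cases hf : f = 0
  · subst hf; simp
  have hM : (0 : ℤ) < M := by exact_mod_cast Nat.pos_of_ne_zero (NeZero.ne M)
  have h1 : (qExpand ℂ M f).coeff ((M : ℤ) * f.order) ≠ 0 := by
    rw [qExpand_coeff_mul]
    exact fun h => hf (HahnSeries.coeff_order_eq_zero.mp h)
  apply le_antisymm (HahnSeries.order_le_of_coeff_ne_zero h1)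
  have hne : qExpand ℂ M f ≠ 0 := HahnSeries.ne_zero_of_coeff_ne_zero h1
  have h2 : (qExpand ℂ M f).coeff (qExpand ℂ M f).order ≠ 0 :=
    fun h => hne (HahnSeries.coeff_order_eq_zero.mp h)
  by_cases hd : (M : ℤ) ∣ (qExpand ℂ M f).order
  · obtain ⟨k, hk⟩ := hd
    rw [hk, qExpand_coeff_mul] at h2
    rw [hk]
    exact mul_le_mul_of_nonneg_left (HahnSeries.order_le_of_coeff_ne_zero h2) hM.le
  · exact absurd (qExpand_coeff_of_not_dvd M f hd) h2

theorem sigmaInf_jF_order (x : XN N) : (sigmaInf N x (jF N)).order = -(N : ℤ) := by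
  rw [sigmaInf_jF, order_qExpand, order_jqModC]; ring

theorem laurent_order_inv (f : LaurentSeries ℂ) : f⁻¹.order = -f.order := by
  by_cases hf : f = 0
  · subst hf; simp
  have h := HahnSeries.order_mul hf (inv_ne_zero hf)
  rw [mul_inv_cancel₀ hf, HahnSeries.order_one] at h
  omega

theorem sigmaInf_jF_inv_order (x : XN N) : (sigmaInf N x (jF N)⁻¹).order = (N : ℤ) := by
  rw [map_inv₀, laurent_order_inv, sigmaInf_jF_order, neg_neg]

end

end Fermat.Agent.S24
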