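import Mathlib
import Fermat.Agent.S24.Defs
import Fermat.Agent.S24.HolPer
import Fermat.Agent.S24.Rot

/-!
# Translation and change of period for `q_h`-expansions
-/

set_option autoImplicit false

open UpperHalfPlane Function Complex
open scoped Manifold MatrixGroups ModularForm

noncomputable section

namespace Fermat.Agent.S24.Cusp

local notation "𝕢" => Function.Periodic.qParam

/-- `τ ↦ f (τ - 1)`. -/
def shiftFun (f : ℍ → ℂ) : ℍ → ℂ := fun τ => f (ModularGroup.T⁻¹ • τ)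

theorem T_inv_smul (τ : ℍ) : ModularGroup.T⁻¹ • τ = (-1 : ℝ) +ᵥ τ := by
  have := modular_T_zpow_smul τ (-1)
  simpa using this

theorem coe_T_inv_smul (τ : ℍ) : ((ModularGroup.T⁻¹ • τ : ℍ) : ℂ) = (τ : ℂ) - 1 := by
  rw [T_inv_smul, coe_vadd]
  push_cast
  ring

theorem im_T_inv_smul (τ : ℍ) : (ModularGroup.T⁻¹ • τ : ℍ).im = τ.im := by
  rw [T_inv_smul, vadd_im]

theorem tendsto_T_inv_smul :
    Filter.Tendsto (fun τ : ℍ => ModularGroup.T⁻¹ • τ) atImInfty atImInfty := by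
  rw [atImInfty, Filter.tendsto_comap_iff]
  have : (UpperHalfPlane.im ∘ fun τ : ℍ => ModularGroup.T⁻¹ • τ) = UpperHalfPlane.im := by
    funext τ
    exact im_T_inv_smul τ
  rw [this]
  exact Filter.tendsto_comap

theorem isBoundedAtImInfty_shiftFun {f : ℍ → ℂ} (hf : IsBoundedAtImInfty f) :
    IsBoundedAtImInfty (shiftFun f) :=
  Asymptotics.IsBigO.comp_tendsto hf tendsto_T_inv_smul

theorem periodic_shiftFun {h : ℝ} {f : ℍ → ℂ} (hf : Periodic (f ∘ ofComplex) h) :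
    Periodic (shiftFun f ∘ ofComplex) h := by
  intro z
  rcases lt_or_ge 0 z.im with hz | hz
  · have hz' : 0 < (z + (h : ℂ)).im := by simpa using hz
    simp only [Function.comp_apply, shiftFun]
    rw [ofComplex_apply_of_im_pos hz, ofComplex_apply_of_im_pos hz']
    have h1 := hf ((ModularGroup.T⁻¹ • (⟨z, hz⟩ : ℍ) : ℍ) : ℂ)
    simp only [Function.comp_apply, ofComplex_apply] at h1
    rw [← h1]
    congr 1
    rw [← ofComplex_apply (ModularGroup.T⁻¹ • (⟨z + (h : ℂ), hz'⟩ : ℍ))]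
    congr 1
    rw [coe_T_inv_smul, coe_T_inv_smul]
    show z + (h : ℂ) - 1 = z - 1 + h
    ring
  · have hz' : (z + (h : ℂ)).im ≤ 0 := by simpa using hz
    simp only [Function.comp_apply]
    rw [ofComplex_apply_eq_of_im_nonpos hz' hz]

theorem mdiff_shiftFun {f : ℍ → ℂ} (hf : MDiff f) : MDiff (shiftFun f) := by
  have h1 : shiftFun f = f ∣[(0 : ℤ)] (ModularGroup.T⁻¹ : SL(2, ℤ)) := by
    funext τ
    rw [ModularForm.SL_slash_apply]
    simp [shiftFun]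
  rw [h1]
  exact hf.slash 0 _

/-- The root of unity `exp (2πi/h)`. -/
def zetaC (h : ℕ) : ℂ := Complex.exp (2 * Real.pi * Complex.I / h)

theorem zetaC_ne_zero (h : ℕ) : zetaC h ≠ 0 := Complex.exp_ne_zero _

/-- The root of unity `exp (2πi/h)` as a unit. -/
def zetaU (h : ℕ) : ℂˣ := Units.mk0 (zetaC h) (zetaC_ne_zero h)

@[simp] theorem coe_zetaU (h : ℕ) : ((zetaU h : ℂˣ) : ℂ) = zetaC h := rfl

theorem isPrimitiveRoot_zetaC (h : ℕ) [NeZero h] : IsPrimitiveRoot (zetaC h) h :=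
  Complex.isPrimitiveRoot_exp h (NeZero.ne h)

theorem isPrimitiveRoot_zetaU (h : ℕ) [NeZero h] : IsPrimitiveRoot (zetaU h) h :=
  IsPrimitiveRoot.coe_units_iff.mp (isPrimitiveRoot_zetaC h)

theorem qParam_sub_one (h : ℕ) (z : ℂ) : 𝕢 (h : ℝ) (z - 1) = 𝕢 (h : ℝ) z * (zetaC h)⁻¹ := by
  rw [Function.Periodic.qParam, Function.Periodic.qParam, zetaC, ← Complex.exp_neg,
    ← Complex.exp_add]
  congr 1
  push_cast
  ring

variable (h : ℕ) [NeZero h]

omit [NeZero h] in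
theorem shiftFun_mem {f : ℍ → ℂ} (hf : f ∈ HolPer h) : shiftFun f ∈ HolPer h :=
  ⟨mdiff_shiftFun hf.1, periodic_shiftFun hf.2.1, isBoundedAtImInfty_shiftFun hf.2.2⟩

/-- Translation by `-1` on `HolPer h`. -/
def shiftPer (f : HolPer h) : HolPer h := ⟨shiftFun f, shiftFun_mem h f.2⟩

omit [NeZero h] in
@[simp] theorem shiftPer_apply (f : HolPer h) (τ : ℍ) :
    (shiftPer h f : ℍ → ℂ) τ = (f : ℍ → ℂ) (ModularGroup.T⁻¹ • τ) := rfl

theorem qExpansion_shiftPer_coeff (f : HolPer h) (n : ℕ) :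
    (qExpansion (h : ℝ) (shiftPer h f : ℍ → ℂ)).coeff n =
      ((zetaC h)⁻¹) ^ n * (qExpansion (h : ℝ) (f : ℍ → ℂ)).coeff n := by
  have han := HolPer.analyticAt h (shiftPer h f)
  have key : ∀ τ : ℍ, HasSum (fun m : ℕ =>
      (((zetaC h)⁻¹) ^ m * (qExpansion (h : ℝ) (f : ℍ → ℂ)).coeff m) • 𝕢 (h : ℝ) (τ : ℂ) ^ m)
      ((shiftPer h f : ℍ → ℂ) τ) := by
    intro τ
    have h1 := hasSum_qExpansion (HolPer.pos h) f.2.2.1 f.2.1 f.2.2.2 (ModularGroup.T⁻¹ • τ)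
    rw [coe_T_inv_smul, qParam_sub_one] at h1
    rw [shiftPer_apply]
    convert h1 using 2 with m
    simp only [smul_eq_mul, mul_pow]
    ring
  exact (@qExpansion_coeff_unique (ℍ → ℂ) ⟨fun g => g, fun _ _ h => h⟩ (h : ℝ)
    (shiftPer h f : ℍ → ℂ) _ (HolPer.pos h) han key n).symm

theorem qExpLaurent_shiftPer (f : HolPer h) :
    qExpLaurent h (shiftPer h f) = rot (zetaU h)⁻¹ (qExpLaurent h f) := by
  ext n
  rw [rot_coeff]
  show (HahnSeries.ofPowerSeries ℤ ℂ (qExpansion (h : ℝ) (shiftPer h f : ℍ → ℂ))).coeff n =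
    _ * (HahnSeries.ofPowerSeries ℤ ℂ (qExpansion (h : ℝ) (f : ℍ → ℂ))).coeff n
  rcases lt_or_ge n 0 with hn | hn
  · rw [ModularCurve.ofPowerSeries_coeff_of_neg _ hn, ModularCurve.ofPowerSeries_coeff_of_neg _ hn,
      mul_zero]
  · obtain ⟨m, rfl⟩ := Int.eq_ofNat_of_zero_le hn
    rw [HahnSeries.ofPowerSeries_apply_coeff, HahnSeries.ofPowerSeries_apply_coeff,
      qExpansion_shiftPer_coeff]
    simp

/-! ### Change of period -/

omit [NeZero h] in
theorem mem_HolPer_of_one {f : ℍ → ℂ} (hf : f ∈ HolPer 1) : f ∈ HolPer h := by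
  refine ⟨hf.1, ?_, hf.2.2⟩
  have := hf.2.1.nat_mul h
  simpa using this

/-- A `1`-periodic function seen as an `h`-periodic function. -/
def upPer : HolPer 1 →ₐ[ℂ] HolPer h :=
  Subalgebra.inclusion (fun _ hf => mem_HolPer_of_one h hf)

omit [NeZero h] in
@[simp] theorem coe_upPer (f : HolPer 1) : (upPer h f : ℍ → ℂ) = f := rfl

theorem qExpansion_upPer_coeff (f : HolPer 1) (n : ℕ) :
    (qExpansion (h : ℝ) (f : ℍ → ℂ)).coeff n =
      if h ∣ n then (qExpansion ((1 : ℕ) : ℝ) (f : ℍ → ℂ)).coeff (n / h) else 0 := by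
  have := UpperHalfPlane.qExpansion_coeff_nat_mul (HolPer.pos 1) f.2.2.1 f.2.1 f.2.2.2
    (Nat.pos_of_ne_zero (NeZero.ne h)) n
  rwa [show (h : ℝ) * ((1 : ℕ) : ℝ) = (h : ℝ) by simp] at this

theorem qExpLaurent_upPer (f : HolPer 1) :
    qExpLaurent h (upPer h f) = ModularCurve.qExpand ℂ h (qExpLaurent 1 f) := by
  have hpos : 0 < h := Nat.pos_of_ne_zero (NeZero.ne h)
  ext k
  show (HahnSeries.ofPowerSeries ℤ ℂ (qExpansion (h : ℝ) (f : ℍ → ℂ))).coeff k =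
    (ModularCurve.qExpand ℂ h
      (HahnSeries.ofPowerSeries ℤ ℂ (qExpansion ((1 : ℕ) : ℝ) (f : ℍ → ℂ)))).coeff k
  by_cases hk : (h : ℤ) ∣ k
  · obtain ⟨m, rfl⟩ := hk
    rw [ModularCurve.qExpand_coeff_mul]
    rcases lt_or_ge m 0 with hm | hm
    · rw [ModularCurve.ofPowerSeries_coeff_of_neg _ hm, ModularCurve.ofPowerSeries_coeff_of_neg]
      exact mul_neg_of_pos_of_neg (by exact_mod_cast hpos) hm
    · obtain ⟨m', rfl⟩ := Int.eq_ofNat_of_zero_le hm
      rw [show (h : ℤ) * (m' : ℤ) = ((h * m' : ℕ) : ℤ) by push_cast; ring,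
        HahnSeries.ofPowerSeries_apply_coeff, HahnSeries.ofPowerSeries_apply_coeff,
        qExpansion_upPer_coeff, if_pos (dvd_mul_right h m'), Nat.mul_div_cancel_left _ hpos]
  · rw [ModularCurve.qExpand_coeff_of_not_dvd _ _ hk]
    rcases lt_or_ge k 0 with hk0 | hk0
    · rw [ModularCurve.ofPowerSeries_coeff_of_neg _ hk0]
    · obtain ⟨k', rfl⟩ := Int.eq_ofNat_of_zero_le hk0
      rw [HahnSeries.ofPowerSeries_apply_coeff, qExpansion_upPer_coeff, if_neg]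
      intro hd
      exact hk (Int.natCast_dvd_natCast.mpr hd)

end Fermat.Agent.S24.Cusp
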