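import Mathlib
import Fermat.Agent.S24.Sigma
import Fermat.Agent.S24.Conj
import Fermat.Agent.S24.FF.Glue
import Fermat.Agent.S24.Targets
import Fermat.Agent.S24.Cusp.RotCount
import Fermat.Agent.S24.Cusp.Shift
import Fermat.Prelude.Thm_ModularCurve_coeff_jqModC_neg_one
import Fermat.Prelude.Thm_ModularCurve_coeff_jqModC_pow_of_lt

/-!
# Cusp data: the embeddings `sigmaInf N x : FN N →+* LaurentSeries ℂ`
-/

set_option autoImplicit false

open UpperHalfPlane Function ModularCurve AlgebraicCurve IntermediateField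
open scoped Manifold MatrixGroups

noncomputable section

namespace Fermat.Agent.S24.Cusp

variable (N : ℕ) [NeZero N]

omit [NeZero N] in
/-- A subfield of the function field containing the constants and the `j(q^d)` is everything. -/
theorem mem_subfield_of_gen (S0 : Subfield (FN N))
    (hK : ∀ a : Kb, algebraMap Kb (FN N) a ∈ S0)
    (hj : ∀ (d : ℕ) [NeZero d] (hd : d ∣ N), jBar N d hd ∈ S0) (f : FN N) : f ∈ S0 := by
  let F := modularFunctionFieldBar N
  let S : Subfield (LaurentSeries Kb) := S0.map F.val.toRingHom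
  have key : ∀ x ∈ F, x ∈ S := by
    apply bar_le
    · intro a
      exact ⟨algebraMap Kb F a, hK a, rfl⟩
    · intro d _ hd
      exact ⟨jBar N d hd, hj d hd, coe_jBar N d hd⟩
  obtain ⟨y, hy, hyx⟩ := key f f.2
  have : y = f := Subtype.ext hyx
  rw [← this]; exact hy

theorem sigma0_mem_range (g : SL(2, ℤ)) (f : FN N) : sigma0 N g f ∈ (toMer N).fieldRange := by
  apply mem_subfield_of_gen N ((toMer N).fieldRange.comap (sigma0 N g))
  · intro a
    refine ⟨algebraMap ℂ (MerPer N) (iotaK a), ?_⟩
    rw [toMer_const, sigma0_algebraMap]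
  · intro d _ hd
    obtain ⟨A, B, hB, hAB⟩ := exists_jd_smul_eq_div hd g⁻¹
    refine ⟨algebraMap _ (MerPer N) A / algebraMap _ (MerPer N) B, ?_⟩
    have hne : algebraMap Hol Mer (inclHol N B) ≠ 0 := by
      rw [Ne, map_eq_zero_iff _ (IsFractionRing.injective Hol Mer)]
      intro h
      have := congrFun (congrArg Subtype.val h) UpperHalfPlane.I
      exact hB _ this
    rw [sigma0_jBar, map_div₀, toMer_algebraMap, toMer_algebraMap, div_eq_iff hne, ← map_mul]
    congr 1
    apply Subtype.ext
    funext τ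
    show (A : ℍ → ℂ) τ = jd d (g⁻¹ • τ) * (B : ℍ → ℂ) τ
    rw [hAB, div_mul_cancel₀ _ (hB τ)]

/-- The preimage of `sigma N x` in fractions of `N`-periodic functions. -/
def pre (x : XN N) : FN N →+* MerPer N :=
  liftThrough (toMer N) (sigma N x) (fun f => sigma0_mem_range N _ f)

theorem toMer_pre (x : XN N) (f : FN N) : toMer N (pre N x f) = sigma N x f :=
  liftThrough_spec _ _ _ f

theorem pre_eq_iff (x : XN N) (f : FN N) (u : MerPer N) :
    pre N x f = u ↔ sigma N x f = toMer N u :=
  liftThrough_eq_iff _ _ _ f u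

/-- The expansion at the cusp `∞` of the conjugate of `f` attached to the coset `x`. -/
def sigmaInf (x : XN N) : FN N →+* LaurentSeries ℂ := (toLaurent N).comp (pre N x)

theorem sigmaInf_apply (x : XN N) (f : FN N) : sigmaInf N x f = toLaurent N (pre N x f) := rfl

theorem sigmaInf_injective : Injective (sigmaInf N) := by
  intro x y hxy
  apply sigma_injective jfun_isSLInvariant jfun_hasSimplePoleAtImInfty N
  ext f
  have h1 : sigmaInf N x f = sigmaInf N y f := by rw [hxy]
  rw [sigmaInf_apply, sigmaInf_apply] at h1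
  rw [← toMer_pre, ← toMer_pre, toLaurent_injective N h1]

theorem sigmaInf_algebraMap (x : XN N) (a : Kb) :
    sigmaInf N x (algebraMap Kb (FN N) a) = HahnSeries.C (iotaK a) := by
  have : pre N x (algebraMap Kb (FN N) a) = algebraMap ℂ (MerPer N) (iotaK a) := by
    rw [pre_eq_iff, sigma_algebraMap, toMer_const]
  rw [sigmaInf_apply, this, toLaurent_const]

/-- `j` as a fraction of `N`-periodic functions. -/
def jPerN : MerPer N :=
  algebraMap (HolPer N) (MerPer N) (upPer N (e4Scal 1)) ^ 3 /
    algebraMap (HolPer N) (MerPer N) (upPer N (deltaScal 1))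

omit [NeZero N] in
theorem inclHol_upPer (f : HolPer 1) : inclHol N (upPer N f) = inclHol 1 f := Subtype.ext rfl

theorem toMer_jPerN : toMer N (jPerN N) = algebraMap Hol Mer (jdHol 1) := by
  rw [← toMer_jdPer, jPerN, jdPer, map_div₀, map_div₀, map_pow, map_pow, toMer_algebraMap,
    toMer_algebraMap, toMer_algebraMap, toMer_algebraMap, inclHol_upPer, inclHol_upPer]

theorem toLaurent_algebraMap_eq (h : ℕ) [NeZero h] (f : HolPer h) :
    toLaurent h (algebraMap (HolPer h) (MerPer h) f) = qExpLaurent h f :=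
  IsFractionRing.lift_algebraMap _ _

theorem toLaurent_jPerN : toLaurent N (jPerN N) = qExpand ℂ N (jqModC ℂ) := by
  rw [← jqNModC_one, ← toLaurent_jdPer, jPerN, jdPer, map_div₀, map_div₀, map_div₀, map_pow,
    map_pow, map_pow, toLaurent_algebraMap_eq, toLaurent_algebraMap_eq, toLaurent_algebraMap_eq,
    toLaurent_algebraMap_eq, qExpLaurent_upPer, qExpLaurent_upPer]

theorem sigmaInf_jF (x : XN N) : sigmaInf N x (jF N) = qExpand ℂ N (jqModC ℂ) := by
  have : pre N x (jF N) = jPerN N := by
    rw [pre_eq_iff, sigma_jF jfun_isSLInvariant, toMer_jPerN]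
  rw [sigmaInf_apply, this, toLaurent_jPerN]

theorem qExpand_jqModC_ne_zero : qExpand ℂ N (jqModC ℂ) ≠ 0 := by
  intro h
  have h1 := qExpand_coeff_mul (R := ℂ) N (jqModC ℂ) (-1)
  rw [h, coeff_jqModC_neg_one] at h1
  simp at h1

theorem order_qExpand_jqModC : (qExpand ℂ N (jqModC ℂ)).order = -(N : ℤ) := by
  apply le_antisymm
  · apply HahnSeries.order_le_of_coeff_ne_zero
    have h1 := qExpand_coeff_mul (R := ℂ) N (jqModC ℂ) (-1)
    rw [coeff_jqModC_neg_one, mul_neg_one] at h1
    rw [h1]
    exact one_ne_zero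
  · rw [HahnSeries.le_order_iff_forall (qExpand_jqModC_ne_zero N)]
    intro k hk
    by_cases hd : (N : ℤ) ∣ k
    · obtain ⟨m, rfl⟩ := hd
      rw [qExpand_coeff_mul]
      have hm : m < -((1 : ℕ) : ℤ) := by
        have hN : (0 : ℤ) < N := by exact_mod_cast Nat.pos_of_ne_zero (NeZero.ne N)
        push_cast
        nlinarith
      have := coeff_jqModC_pow_of_lt ℂ hm
      rwa [pow_one] at this
    · exact qExpand_coeff_of_not_dvd N _ hd

theorem order_inv' {L : Type*} [Field L] (f : LaurentSeries L) : f⁻¹.order = -f.order := by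
  rcases eq_or_ne f 0 with rfl | hf
  · simp
  have h1 : (f * f⁻¹).order = f.order + f⁻¹.order :=
    HahnSeries.order_mul hf (inv_ne_zero hf)
  rw [mul_inv_cancel₀ hf, HahnSeries.order_one] at h1
  omega

theorem order_sigmaInf_inv_jF (x : XN N) : (sigmaInf N x (jF N)⁻¹).order = (N : ℤ) := by
  rw [map_inv₀, order_inv', sigmaInf_jF, order_qExpand_jqModC, neg_neg]

/-! ### Equivariance under `T` -/

omit [NeZero N] in
theorem inclHol_shiftPer (f : HolPer N) :
    inclHol N (shiftPer N f) = actHol ModularGroup.T (inclHol N f) := Subtype.ext rfl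

theorem sigmaInf_T_smul (x : XN N) (f : FN N) :
    sigmaInf N (ModularGroup.T • x) f = rot (zetaU N)⁻¹ (sigmaInf N x f) := by
  obtain ⟨a, b, hb, hab⟩ := IsFractionRing.div_surjective (A := HolPer N) (pre N x f)
  have hpre : pre N (ModularGroup.T • x) f =
      algebraMap _ (MerPer N) (shiftPer N a) / algebraMap _ (MerPer N) (shiftPer N b) := by
    rw [pre_eq_iff, ← actMer_sigma jfun_isSLInvariant, ← toMer_pre, ← hab, map_div₀, map_div₀,
      map_div₀, toMer_algebraMap, toMer_algebraMap, toMer_algebraMap, toMer_algebraMap,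
      actMer_algebraMap, actMer_algebraMap, inclHol_shiftPer, inclHol_shiftPer]
  rw [sigmaInf_apply, sigmaInf_apply, hpre, ← hab, map_div₀, map_div₀, toLaurent_algebraMap_eq,
    toLaurent_algebraMap_eq, toLaurent_algebraMap_eq, toLaurent_algebraMap_eq,
    qExpLaurent_shiftPer, qExpLaurent_shiftPer, rot_div]

/-! ### The count -/

section Param

variable {K F : Type*} [Field K] [Field F] [Algebra K F]

theorem adjoin_inv_eq (y : F) : K⟮y⁻¹⟯ = K⟮y⟯ := by
  apply le_antisymm
  · rw [adjoin_simple_le_iff]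
    exact inv_mem (mem_adjoin_simple_self K y)
  · rw [adjoin_simple_le_iff]
    have := inv_mem (mem_adjoin_simple_self K y⁻¹)
    rwa [inv_inv] at this

theorem finrank_eq_of_eq {A B : IntermediateField K F} (h : A = B) :
    Module.finrank A F = Module.finrank B F := by
  subst h; rfl

theorem finiteDimensional_of_eq {A B : IntermediateField K F} (h : A = B)
    (hA : FiniteDimensional A F) : FiniteDimensional B F := by
  subst h; exact hA

theorem isFiniteParam_inv {y : F} (hy : IsFiniteParam K y) : IsFiniteParam K y⁻¹ where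
  transcendental := fun h => hy.transcendental (by simpa using h.inv)
  finite := finiteDimensional_of_eq (adjoin_inv_eq y).symm hy.finite

/-- The counting lemma in rotation form for a finite parameter. -/
theorem card_zeros_eq_orbits_of_rot' [IsAlgClosed K] [CharZero K] {y : F}
    (hy : IsFiniteParam K y)
    {L : Type*} [Field L]
    {X G : Type*} [Finite X] [Group G] [MulAction G X]
    (hcard : Nat.card X = Module.finrank K⟮y⟯ F)
    (σ : X → F →+* LaurentSeries L) (hσ : Function.Injective σ)
    (hK : ∀ i j (a : K), σ i (algebraMap K F a) = σ j (algebraMap K F a))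
    (hKord : ∀ i (a : K), a ≠ 0 → (σ i (algebraMap K F a)).order = 0)
    (hσy : ∀ i j, σ i y = σ j y)
    (e0 : ℕ) (he0 : 0 < e0) (hwy : ∀ i, (σ i y).order = e0)
    (ζ : Lˣ) (hζ : IsPrimitiveRoot ζ e0)
    (g : G) (hg : ∀ i f, σ (g • i) f = rot ζ (σ i f)) :
    Nat.card {v : Place K F // 0 < v.ord y} =
      Nat.card (MulAction.orbitRel.Quotient (Subgroup.zpowers g) X) :=
  haveI := hy.finite
  card_zeros_eq_orbits_of_rot y hy.finite_zeros hy.sum_zeros hy.exists_place_eq
    hy.exists_norm_eq hcard σ hσ hK hKord hσy e0 he0 hwy ζ hζ g hg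

end Param

/-- **Cusp data**: the number of poles of `j` is the number of `T`-orbits on the cosets. -/
theorem targetCusp_of (hparam : IsFiniteParam Kb (jF N))
    (hdeg : Module.finrank Kb⟮jF N⟯ (FN N) = Nat.card (XN N)) : TargetCusp N := by
  have hy : IsFiniteParam Kb (jF N)⁻¹ := isFiniteParam_inv hparam
  have := hparam.finite
  have : Finite (XN N) := by
    apply Nat.finite_of_card_ne_zero
    rw [← hdeg]
    exact Module.finrank_pos.ne'
  have key := card_zeros_eq_orbits_of_rot' (K := Kb) (F := FN N) hy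
    (L := ℂ) (X := XN N) (G := SL(2, ℤ))
    (by rw [← hdeg]; exact (finrank_eq_of_eq (adjoin_inv_eq (jF N))).symm)
    (sigmaInf N) (sigmaInf_injective N)
    (fun i j a => by rw [sigmaInf_algebraMap, sigmaInf_algebraMap])
    (fun i a ha => by
      rw [sigmaInf_algebraMap]
      exact HahnSeries.order_C)
    (fun i j => by rw [map_inv₀, map_inv₀, sigmaInf_jF, sigmaInf_jF])
    N (Nat.pos_of_ne_zero (NeZero.ne N)) (order_sigmaInf_inv_jF N)
    (zetaU N)⁻¹ (isPrimitiveRoot_zetaU N).inv
    ModularGroup.T (sigmaInf_T_smul N)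
  rw [TargetCusp, orbCount]
  refine Eq.trans (Nat.card_congr (Equiv.subtypeEquivRight ?_)) key
  intro v
  rw [Place.ord_inv]
  omega

end Fermat.Agent.S24.Cusp
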