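import Fermat.Agent.S24.Cusp.SigmaInf
import Fermat.Agent.S24.Cusp.RotCount
import Fermat.Agent.S24.FF.Glue
import Fermat.Agent.S24.FF.Places
import Fermat.Agent.S24.DegreeInst
import Fermat.Agent.S24.Targets

/-!
# `TargetCusp N`
-/

set_option autoImplicit false

open AlgebraicCurve IntermediateField
open scoped MatrixGroups

namespace Fermat.Agent.S24

noncomputable section

/-- Counting poles through embeddings in Laurent series permuted by a rotation,
hypothesis-free form. -/
theorem IsFiniteParam.card_poles_eq_orbits_of_rot {K F : Type*} [Field K] [Field F] [Algebra K F]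
    [IsAlgClosed K] [CharZero K] {x : F} (hx : IsFiniteParam K x)
    {L : Type*} [Field L]
    {X G : Type*} [Finite X] [Group G] [MulAction G X]
    (hcard : Nat.card X = Module.finrank K⟮x⟯ F)
    (σ : X → F →+* LaurentSeries L) (hσ : Function.Injective σ)
    (hK : ∀ i j (a : K), σ i (algebraMap K F a) = σ j (algebraMap K F a))
    (hKord : ∀ i (a : K), a ≠ 0 → (σ i (algebraMap K F a)).order = 0)
    (hy : ∀ i j, σ i x = σ j x)
    (e0 : ℕ) (he0 : 0 < e0) (hwy : ∀ i, (σ i x⁻¹).order = e0)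
    (ζ : Lˣ) (hζ : IsPrimitiveRoot ζ e0)
    (g : G) (hg : ∀ i f, σ (g⁻¹ • i) f = rot ζ (σ i f)) :
    Nat.card {v : Place K F // v.ord x < 0} =
      Nat.card (MulAction.orbitRel.Quotient (Subgroup.zpowers g) X) := by
  have hy' : IsFiniteParam K x⁻¹ := hx.inv
  have := hy'.finite
  have key := Cusp.card_zeros_eq_orbits_of_rot (K := K) (F := F) x⁻¹
    hy'.finite_zeros hy'.sum_zeros hy'.exists_place_eq hy'.exists_norm_eq
    (by rw [IsFiniteParam.finrank_inv, hcard])
    σ hσ hK hKord (fun i j => by rw [map_inv₀, map_inv₀, hy i j])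
    e0 he0 hwy ζ hζ g⁻¹ hg
  rw [Subgroup.zpowers_inv] at key
  refine Eq.trans ?_ key
  apply Nat.card_congr
  refine Equiv.subtypeEquivRight ?_
  intro v
  rw [Place.ord_inv]
  omega

theorem targetCusp_of (N : ℕ) [NeZero N] (hx : IsFiniteParam Kb (jF N))
    (hfin : Module.finrank Kb⟮jF N⟯ (FN N) = Nat.card (XN N)) : TargetCusp N :=
  hx.card_poles_eq_orbits_of_rot (L := ℂ) (X := XN N) (G := SL(2, ℤ)) hfin.symm
    (sigmaInf N) (sigmaInf_injective N)
    (fun i j a => by rw [sigmaInf_algebraMap, sigmaInf_algebraMap])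
    (fun i a _ => sigmaInf_algebraMap_order N i a)
    (fun i j => by rw [sigmaInf_jF, sigmaInf_jF])
    N (Nat.pos_of_ne_zero (NeZero.ne N)) (fun i => sigmaInf_jF_inv_order N i)
    (zetaU N) (isPrimitiveRoot_zetaU N)
    ModularGroup.T (fun i f => sigmaInf_T_inv_smul N i f)

theorem targetCusp_of_charpolyCoeff (N : ℕ) [NeZero N] (hP : CharpolyCoeff N) : TargetCusp N :=
  targetCusp_of N (isFiniteParam_jF_of N hP) (degree_of_charpolyCoeff N hP).2

end

end Fermat.Agent.S24
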